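/-
GATE-L / L11-BRIDGE + L10-ABS (helper24).

The bridge between the geometry stack of GATE-L and helper64's Tate-side contract
`GK/S36/S36Top.INV36Gate`, through the old-killer `t` of `GK/New/KillerDies.lean`.

* `GeomInv M N' m P C` : the HECKE-FREE geometric gate at modulus `m`: there are two
  Galois-equivariant `ZMod m`-linear maps `f₁ f₂ : Kum_m (F_M) → Kum_m (F_{N'})` (the degeneracy
  norms `π_*`, `π'_*`) such that every class `y` fixed by the inertia group `I(P)` with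
  `f₁ y = 0 = f₂ y` is killed by the constant `C`.
* `inv36Gate_of_geom` : for a newform `g` of level `M`, a proper divisor `N'` of `M`, a place
  `P | q` and a constant `C ≠ 0` (independent of the level `k`!):
  `(∀ k, GeomInv M N' (lam ^ k) P C) → ∃ t, chig t ≠ 0 ∧ INV36Gate M S lam q t`
  = the conclusion of helper64's `S36Gate`, verbatim.
* `GeomInv.descent` : the aux-level descent (L10) in the same language: a Galois-equivariant
  `ι : Kum_m (F_M) → Kum_m (F_L)` with a retraction up to `d` (`ν ∘ ι = d`), compatible with the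
  degeneracy maps, turns `GeomInv` at level `L` with constant `C` into `GeomInv` at level `M` with
  constant `d * C`.
-/
import Mathlib
import Fermat.Agent.GK.New.KillerDies
import Fermat.Agent.GK.S36.S36Top

set_option autoImplicit false

noncomputable section

namespace Fermat.Agent.GL.Hecke

open CuspForm ModularFormClass CongruenceSubgroup
open Fermat.Agent.GJ Fermat.Agent.GJ.KumGroup Fermat.Agent.GJ.Kum.KumType Fermat.Agent.GJ.KumTower
open Fermat.Agent.GJ.J2.Lat Fermat.Agent.GJ.J2.LatAct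
open Fermat.Agent.GK.Tate.KumHecke Fermat.Agent.GK.Tate.S35Top Fermat.Agent.GK.S36.S36Top
open Fermat.Agent.GK.New

local notation "GQ'" => (AlgebraicClosure ℚ ≃ₐ[ℚ] AlgebraicClosure ℚ)

/-! ### A divisibility lemma in a torsion-free abelian group -/

/-- If `C • a = p ^ (n + C) • z` in a torsion-free abelian group, `C ≠ 0`, then `a ∈ pⁿ L`. -/
theorem exists_eq_pow_smul {L : Type*} [AddCommGroup L]
    (hinj : ∀ c : ℕ, c ≠ 0 → ∀ a b : L, c • a = c • b → a = b)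
    {p : ℕ} (hp : p.Prime) {C : ℕ} (hC : C ≠ 0) (n : ℕ) (a z : L)
    (h : C • a = p ^ (n + C) • z) : ∃ w : L, a = p ^ n • w := by
  obtain ⟨c, C', hC', rfl⟩ := Nat.exists_eq_pow_mul_and_not_dvd hC p hp.ne_one
  have hC'0 : C' ≠ 0 := fun h0 => by simp [h0] at hC
  have hcC : c ≤ p ^ c * C' :=
    (Nat.lt_pow_self hp.one_lt).le.trans (Nat.le_mul_of_pos_right _ (Nat.pos_of_ne_zero hC'0))
  -- `n + C = c + j` with `n ≤ j`
  obtain ⟨j, hj⟩ : ∃ j, n + p ^ c * C' = c + j := ⟨n + p ^ c * C' - c, by omega⟩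
  have hnj : n ≤ j := by omega
  have h1 : p ^ c • (C' • a) = p ^ c • (p ^ j • z) := by
    rw [← mul_smul, ← mul_smul, ← pow_add, ← hj]
    exact h
  have h2 : C' • a = p ^ j • z := hinj _ (pow_ne_zero c hp.ne_zero) _ _ h1
  -- Bezout
  have hcop : IsCoprime (C' : ℤ) ((p : ℤ) ^ j) := by
    have : Nat.Coprime C' (p ^ j) :=
      Nat.Coprime.pow_right j ((Nat.Prime.coprime_iff_not_dvd hp).mpr hC').symm
    exact_mod_cast Nat.isCoprime_iff_coprime.mpr this
  obtain ⟨u, v, huv⟩ := hcop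
  have h3 : a = p ^ j • (u • z + v • a) := by
    have e1 : (u * (C' : ℤ) + v * (p : ℤ) ^ j) • a = a := by rw [huv, one_smul]
    have e2 : ((C' : ℤ)) • a = ((p : ℤ) ^ j) • z := by
      have := h2
      rw [← natCast_zsmul, ← natCast_zsmul] at this
      push_cast at this
      exact this
    calc a = (u * (C' : ℤ) + v * (p : ℤ) ^ j) • a := e1.symm
      _ = u • ((C' : ℤ) • a) + ((p : ℤ) ^ j) • (v • a) := by
          rw [add_smul, mul_smul, mul_comm v, mul_smul]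
      _ = ((p : ℤ) ^ j) • (u • z + v • a) := by
          rw [e2, smul_add, smul_comm u]
      _ = p ^ j • (u • z + v • a) := by
          rw [← natCast_zsmul]; push_cast; rfl
  refine ⟨p ^ (j - n) • (u • z + v • a), ?_⟩
  rw [← mul_smul, ← pow_add, Nat.add_sub_cancel' hnj]
  exact h3

/-! ### The tower maps in the `ThetaN` normalisation -/

section Theta

variable (N : ℕ) [NeZero N] (S : Finset ℕ) (p : ℕ) [Fact p.Prime]

theorem thetaN_eq_zero_iff (n : ℕ) (x : Lam N) :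
    ThetaN N p n x = 0 ↔ ∃ y : Lam N, x = (p ^ n) • y := by
  have : NeZero (p ^ n) := ⟨pow_ne_zero n (Fact.out : p.Prime).ne_zero⟩
  exact thetaLat_eq_zero_iff N (p ^ n) _ x

theorem kumHeckeN_gal (n : ℕ) (t : ↥(heckeAlgebra N 2 (↑S : Set ℕ))) (σ : GQ')
    (k : Additive (Kum Kb (FK N) (p ^ n))) :
    kumHeckeN N S p n t (gal N (p ^ n) σ k) = gal N (p ^ n) σ (kumHeckeN N S p n t k) := by
  have : NeZero (p ^ n) := ⟨pow_ne_zero n (Fact.out : p.Prime).ne_zero⟩
  exact kumHecke_gal_apply N (↑S : Set ℕ) (p ^ n) _ t σ k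

end Theta

/-! ### The Hecke-free geometric gate -/

/-- **The Hecke-free geometric gate** at modulus `m`: two Galois-equivariant linear maps
`Kum_m (F_M) → Kum_m (F_{N'})` whose common kernel meets the `I(P)`-invariants in a group killed by
`C`. -/
def GeomInv (M N' : ℕ) [NeZero M] [NeZero N'] (m : ℕ) (P : ValuationSubring (AlgebraicClosure ℚ))
    (C : ℕ) : Prop :=
  ∃ f₁ f₂ : Additive (Kum Kb (FK M) m) →ₗ[ZMod m] Additive (Kum Kb (FK N') m),
    (∀ (σ : GQ') x, f₁ (gal M m σ x) = gal N' m σ (f₁ x)) ∧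
    (∀ (σ : GQ') x, f₂ (gal M m σ x) = gal N' m σ (f₂ x)) ∧
    ∀ y : Additive (Kum Kb (FK M) m),
      (∀ σ ∈ P.inertiaSubgroupIn ℚ, gal M m σ y = y) → f₁ y = 0 → f₂ y = 0 → C • y = 0

/-- **L11-BRIDGE**: the conclusion of helper64's `S36Gate` from the Hecke-free geometric gate. -/
theorem inv36Gate_of_geom {M N' : ℕ} [NeZero M] [NeZero N'] (hN'M : N' ∣ M) (hne : N' ≠ M)
    {g : CuspForm (Gamma0 M) 2} (hg : g.IsNewform) (lam : ℕ) [Fact lam.Prime] (S : Finset ℕ)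
    (chig : heckeAlgebra M 2 (↑S : Set ℕ) →+* ℂ)
    (hchig : ∀ (ℓ : ℕ) (hℓ : ℓ.Prime) (hℓM : ¬ ℓ ∣ M) (hℓS : ℓ ∉ (↑S : Set ℕ)),
      chig (heckeAlgebra.T hℓ hℓM hℓS) = qCoeff g ℓ)
    (hlamS : lam ∈ S) (hMS : ∀ q : ℕ, q.Prime → q ∣ M → q ∈ S)
    (q : ℕ) (P : ValuationSubring (AlgebraicClosure ℚ)) (hP : P.LiesOverPrime q)
    (C : ℕ) (hC : C ≠ 0) (hgeom : ∀ k : ℕ, GeomInv M N' (lam ^ k) P C) :
    ∃ t : heckeAlgebra M 2 (↑S : Set ℕ), chig t ≠ 0 ∧ INV36Gate M S lam q t := by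
  have hlam : lam.Prime := Fact.out
  obtain ⟨t, ht0, htd⟩ := exists_oldKiller_dies hN'M hne hg lam S chig hchig hlamS hMS
  refine ⟨t, ht0, P, hP, fun n => ⟨n + C, fun x hx => ?_⟩⟩
  obtain ⟨f₁, f₂, hf₁, hf₂, hkill⟩ := hgeom (n + C)
  -- `y := t · Θ_k x` is inertia-invariant and dies under `f₁`, `f₂`
  have hinv : ∀ σ ∈ P.inertiaSubgroupIn ℚ,
      gal M (lam ^ (n + C)) σ (kumHeckeN M S lam (n + C) t (ThetaN M lam (n + C) x))
        = kumHeckeN M S lam (n + C) t (ThetaN M lam (n + C) x) := by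
    intro σ hσ
    rw [← kumHeckeN_gal, hx σ hσ]
  have h3 := hkill _ hinv (htd (n + C) f₁ hf₁ _) (htd (n + C) f₂ hf₂ _)
  rw [kumHeckeN_ThetaN, ← map_nsmul] at h3
  obtain ⟨z, hz⟩ := (thetaN_eq_zero_iff M lam (n + C) _).mp h3
  refine (thetaN_eq_zero_iff M lam n _).mpr ?_
  refine exists_eq_pow_smul (fun c hc a b hab => ?_) hlam hC n _ z hz
  have : (c : ℤ) • a = (c : ℤ) • b := by rw [natCast_zsmul, natCast_zsmul]; exact hab
  exact smul_right_injective (Lam M) (Int.natCast_ne_zero.mpr hc) this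

/-! ### L10-ABS: the aux-level descent -/

/-- **L10-ABS**: descent of the geometric gate from an auxiliary level `L` to the level `M`.
`ι, ι'` are the pull-backs `Kum_m (F_M) → Kum_m (F_L)`, `Kum_m (F_{N'}) → Kum_m (F_{L'})`, `ν` a
retraction of `ι` up to the constant `d` (e.g. the norm, `d = [F_L : F_M]`), and the degeneracy
maps at both levels are compatible with the pull-backs. -/
theorem GeomInv.descent {M N' L L' : ℕ} [NeZero M] [NeZero N'] [NeZero L] [NeZero L'] {m : ℕ}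
    {P : ValuationSubring (AlgebraicClosure ℚ)} {C : ℕ} (d : ℕ)
    (ι : Additive (Kum Kb (FK M) m) →ₗ[ZMod m] Additive (Kum Kb (FK L) m))
    (hι : ∀ (σ : GQ') x, ι (gal M m σ x) = gal L m σ (ι x))
    (ν : Additive (Kum Kb (FK L) m) →ₗ[ZMod m] Additive (Kum Kb (FK M) m))
    (hν : ∀ x, ν (ι x) = d • x)
    (f₁ f₂ : Additive (Kum Kb (FK M) m) →ₗ[ZMod m] Additive (Kum Kb (FK N') m))
    (hf₁ : ∀ (σ : GQ') x, f₁ (gal M m σ x) = gal N' m σ (f₁ x))
    (hf₂ : ∀ (σ : GQ') x, f₂ (gal M m σ x) = gal N' m σ (f₂ x))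
    (ι' : Additive (Kum Kb (FK N') m) →ₗ[ZMod m] Additive (Kum Kb (FK L') m))
    (hL : ∃ F₁ F₂ : Additive (Kum Kb (FK L) m) →ₗ[ZMod m] Additive (Kum Kb (FK L') m),
      (∀ x, F₁ (ι x) = ι' (f₁ x)) ∧ (∀ x, F₂ (ι x) = ι' (f₂ x)) ∧
      ∀ y : Additive (Kum Kb (FK L) m),
        (∀ σ ∈ P.inertiaSubgroupIn ℚ, gal L m σ y = y) → F₁ y = 0 → F₂ y = 0 → C • y = 0) :
    GeomInv M N' m P (d * C) := by
  obtain ⟨F₁, F₂, hF₁, hF₂, hkill⟩ := hL
  refine ⟨f₁, f₂, hf₁, hf₂, fun y hy h1 h2 => ?_⟩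
  have h3 : C • ι y = 0 := by
    refine hkill (ι y) (fun σ hσ => ?_) ?_ ?_
    · rw [← hι, hy σ hσ]
    · rw [hF₁, h1, map_zero]
    · rw [hF₂, h2, map_zero]
  have h4 : ν (C • ι y) = 0 := by rw [h3, map_zero]
  rw [map_nsmul, hν, ← mul_smul, mul_comm] at h4
  exact h4

end Fermat.Agent.GL.Hecke
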