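/-
GATE-L / L11-BRIDGE, complement (helper24): the geometric gate `GeomInv` of
`GL/Hecke/InvGateOfGeom.lean` from its TRANSITION form.

Several steps of the blueprint (vertical part, norm-reduction) lose a bounded power `p^c` in the
LEVEL rather than as a multiplier: they prove that the image of `y ∈ Kum_{p^k}(F_M)` in
`Kum_{p^(k-c)}(F_M)` is killed by `C'`.  Since `Kum_{p^k}(F_M) ≅ Lam M / p^k` this is the same as
`(C' * p^c) • y = 0`:

* `smul_eq_zero_of_trans` : `C' • trans_{k → k-c} y = 0 → (C' * p^c) • y = 0`;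
* `GeomInv.of_trans`      : the gate at level `k ≥ c` from its transition form;
* `GeomInv.of_dvd`        : the trivial gate at small levels (`m ∣ C`).
-/
import Mathlib
import Fermat.Agent.GL.Hecke.InvGateOfGeom
import Fermat.Agent.GK.S36.S36End

set_option autoImplicit false

noncomputable section

namespace Fermat.Agent.GL.Hecke

open CuspForm ModularFormClass CongruenceSubgroup
open Fermat.Agent.GJ Fermat.Agent.GJ.KumGroup Fermat.Agent.GJ.Kum.KumType Fermat.Agent.GJ.KumTower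
open Fermat.Agent.GJ.J2.Lat Fermat.Agent.GJ.J2.LatAct
open Fermat.Agent.GK.Tate.KumHecke Fermat.Agent.GK.Tate.S35Top Fermat.Agent.GK.S36.S36Top

local notation "GQ'" => (AlgebraicClosure ℚ ≃ₐ[ℚ] AlgebraicClosure ℚ)

section Trans

variable (N : ℕ) [NeZero N] (p : ℕ) [Fact p.Prime]

theorem thetaN_surjective (n : ℕ) : Function.Surjective (ThetaN N p n) := by
  have : NeZero (p ^ n) := ⟨pow_ne_zero n (Fact.out : p.Prime).ne_zero⟩
  exact thetaLat_surjective N (p ^ n) _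

/-- **level loss = multiplier loss**: if the image of `y ∈ Kum_{p^k}` in `Kum_{p^(k-c)}` is killed
by `C'`, then `y` is killed by `C' * p^c`. -/
theorem smul_eq_zero_of_trans {k c : ℕ} (hck : c ≤ k) (C' : ℕ)
    (y : Additive (Kum Kb (FK N) (p ^ k)))
    (h : C' • (Additive.ofMul (KumTower.trans (pow_dvd_pow p (Nat.sub_le k c))
      (Additive.toMul y)) : Additive (Kum Kb (FK N) (p ^ (k - c)))) = 0) :
    (C' * p ^ c) • y = 0 := by
  obtain ⟨x, rfl⟩ := thetaN_surjective N p k y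
  rw [Fermat.Agent.GK.S36.S36End.thetaN_trans N p (Nat.sub_le k c) x, ← map_nsmul] at h
  obtain ⟨z, hz⟩ := (thetaN_eq_zero_iff N p (k - c) _).mp h
  rw [← map_nsmul]
  refine (thetaN_eq_zero_iff N p k _).mpr ⟨z, ?_⟩
  rw [mul_comm, mul_smul, hz, ← mul_smul, ← pow_add, Nat.add_sub_cancel' hck]

end Trans

/-- the trivial gate: `m ∣ C`. -/
theorem GeomInv.of_dvd {M N' : ℕ} [NeZero M] [NeZero N'] {m : ℕ}
    {P : ValuationSubring (AlgebraicClosure ℚ)} {C : ℕ} (hmC : m ∣ C)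
    (f₁ f₂ : Additive (Kum Kb (FK M) m) →ₗ[ZMod m] Additive (Kum Kb (FK N') m))
    (hf₁ : ∀ (σ : GQ') x, f₁ (gal M m σ x) = gal N' m σ (f₁ x))
    (hf₂ : ∀ (σ : GQ') x, f₂ (gal M m σ x) = gal N' m σ (f₂ x)) :
    GeomInv M N' m P C := by
  refine ⟨f₁, f₂, hf₁, hf₂, fun y _ _ _ => ?_⟩
  obtain ⟨d, rfl⟩ := hmC
  rw [mul_comm, mul_smul]
  have : (m : ℕ) • y = 0 := by
    rw [← Nat.cast_smul_eq_nsmul (ZMod m), ZMod.natCast_self, zero_smul]
  rw [this, smul_zero]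

/-- **the gate at level `k ≥ c` from its transition form.** -/
theorem GeomInv.of_trans {M N' : ℕ} [NeZero M] [NeZero N'] (p : ℕ) [Fact p.Prime] {k c : ℕ}
    (hck : c ≤ k) {P : ValuationSubring (AlgebraicClosure ℚ)} (C' : ℕ)
    (f₁ f₂ : Additive (Kum Kb (FK M) (p ^ k)) →ₗ[ZMod (p ^ k)] Additive (Kum Kb (FK N') (p ^ k)))
    (hf₁ : ∀ (σ : GQ') x, f₁ (gal M (p ^ k) σ x) = gal N' (p ^ k) σ (f₁ x))
    (hf₂ : ∀ (σ : GQ') x, f₂ (gal M (p ^ k) σ x) = gal N' (p ^ k) σ (f₂ x))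
    (h : ∀ y : Additive (Kum Kb (FK M) (p ^ k)),
      (∀ σ ∈ P.inertiaSubgroupIn ℚ, gal M (p ^ k) σ y = y) → f₁ y = 0 → f₂ y = 0 →
        C' • (Additive.ofMul (KumTower.trans (pow_dvd_pow p (Nat.sub_le k c))
          (Additive.toMul y)) : Additive (Kum Kb (FK M) (p ^ (k - c)))) = 0) :
    GeomInv M N' (p ^ k) P (C' * p ^ c) :=
  ⟨f₁, f₂, hf₁, hf₂, fun y hy h1 h2 => smul_eq_zero_of_trans M p hck C' y (h y hy h1 h2)⟩

end Fermat.Agent.GL.Hecke
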