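/-
GATE-L / L10-ASM (helper24): the CONCRETE form of the geometric gate and its descent from an
auxiliary level.

* `bLowB N q m`   : the `β`-push-forward `Kum_m(F_{N q}) → Kum_m(F_N)`, `[v] ↦ [Nm_β v]`, for the
  prelude's second degeneracy embedding `betaB N q = heckeBetaBar` (`f(Q) ↦ f(Q^q)`); an ALIAS of
  helper82's `GK.UTr.betaLow` (every `q`, also `q ∣ N`), Galois-equivariant (`bLowB_gal`).
* `GeomInvAB N0 q m P C` : the contract of the whole geometric stack at one level `N0 * q`: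
  every `I(P)`-invariant `y ∈ Kum_m(F_{N0 q})` with `α_* y = 0 = β_* y` satisfies `C • y = 0`
  (`= GeomInvAux.GeomKill` of helper17, `geomInvAB_iff_geomKill`).
* `UnitGateAB`, `geomInvAB_of_unitGate` : the same contract in UNIT form, with a bounded level loss.
* `geomInv_of_AB` : `GeomInvAB N0 q m P C → GeomInv (N0 * q) N0 m P C`.
* `geomInvAB_descent` : for `N0 ∣ L0` and the two norm squares along `F_{N0 q} ⊆ F_{L0 q}`:
  `GeomInvAB L0 q m P C → GeomInv (N0 * q) N0 m P ([F_{L0 q} : F_{N0 q}] * C)`.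
* `s36GeomGate_of_AB` : helper64's `S36GeomGate` from `GeomInvAB` at auxiliary levels.
-/
import Mathlib
import Fermat.Agent.GL.Hecke.GeomInvTr
import Fermat.Agent.GL.Descent.KumIncl
import Fermat.Agent.GL.Final.S36OfGeom
import Fermat.Agent.GK.UTr.KumAlphaGal
import Fermat.Agent.GK.UTr.KumBeta
import Fermat.Agent.GL.Descent.GeomInvAux

set_option autoImplicit false
set_option linter.style.haveILetI false
set_option linter.unusedSectionVars false

noncomputable section

namespace Fermat.Agent.GL.Hecke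

open AlgebraicCurve ModularCurve IntermediateField
open Fermat.Agent.S24 Fermat.Agent.S24_helper82
open Fermat.Agent.GJ Fermat.Agent.GJ.HN Fermat.Agent.GJ.HeckeMer Fermat.Agent.GJ.HInputs
open Fermat.Agent.GJ.KumGroup Fermat.Agent.GJ.Kum.KumType Fermat.Agent.GJ.KumTower
open Fermat.Agent.GK.UTr Fermat.Agent.GL.Descent.KumIncl Fermat.Agent.GK.SS.AuxDescent

local notation "GQ'" => (AlgebraicClosure ℚ ≃ₐ[ℚ] AlgebraicClosure ℚ)

/-! ### The `β`-push-forward on Kummer groups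

The `β`-push-forward itself is helper82's `GK/UTr/KumBeta.lean` (`normUnitsB`, `betaLow`,
`betaLow_gal`), landed a few minutes before this file; `bLowB` is kept as an ALIAS of `betaLow`
and `GeomInvAB` below is helper17's `GeomInvAux.GeomKill` (see `geomInvAB_iff_geomKill`). -/

section Beta

variable (N q m : ℕ) [NeZero N] [NeZero q]

/-- **`β_*`** : `Kum(F_{N q}, m) → Kum(F_N, m)`, `[v] ↦ [Nm_β v]` (alias of helper82's
`betaLow`) -/
abbrev bLowB : Additive (Kum Kb (FK (N * q)) m) →ₗ[ZMod m] Additive (Kum Kb (FK N) m) :=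
  betaLow N q m

theorem bLowB_mk (v : pDivUnits Kb (FK (N * q)) m) :
    bLowB N q m (Additive.ofMul (Kum.mk v)) =
      Additive.ofMul (Kum.mk ⟨normUnitsB N q v, normUnitsB_mem N q m v v.2⟩) := rfl

/-- **`β_*` commutes with the Galois action** -/
theorem bLowB_gal (σ : GQ') (x : Additive (Kum Kb (FK (N * q)) m)) :
    bLowB N q m (gal (N * q) m σ x) = gal N m σ (bLowB N q m x) :=
  betaLow_gal N q m σ x

end Beta

/-! ### The concrete gate and its descent -/

section Gate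

/-- **The concrete geometric gate at level `N0 * q`**: every `I(P)`-invariant class of
`Kum_m(F_{N0 q})` killed by both degeneracy push-forwards `α_*`, `β_*` to level `N0` is killed by
`C`. -/
def GeomInvAB (N0 q : ℕ) [NeZero N0] [NeZero q] (m : ℕ)
    (P : ValuationSubring (AlgebraicClosure ℚ)) (C : ℕ) : Prop :=
  ∀ y : Additive (Kum Kb (FK (N0 * q)) m),
    (∀ σ ∈ P.inertiaSubgroupIn ℚ, gal (N0 * q) m σ y = y) →
      aLow N0 q m y = 0 → bLowB N0 q m y = 0 → C • y = 0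

variable {N0 L0 q : ℕ} [NeZero N0] [NeZero L0] [NeZero q] {m : ℕ}
  {P : ValuationSubring (AlgebraicClosure ℚ)} {C : ℕ}

/-- the concrete gate IS helper17's canonical `GeomKill` -/
theorem geomInvAB_iff_geomKill :
    GeomInvAB N0 q m P C ↔ Fermat.Agent.GL.Descent.GeomInvAux.GeomKill N0 q m P C := Iff.rfl

/-- the concrete gate is an instance of the abstract one -/
theorem geomInv_of_AB (h : GeomInvAB N0 q m P C) : GeomInv (N0 * q) N0 m P C :=
  ⟨aLow N0 q m, bLowB N0 q m, aLow_gal N0 q m, bLowB_gal N0 q m, h⟩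

/-- the `α`-square on Kummer groups from the square on functions -/
theorem aLow_kumIncl (h0 : N0 ∣ L0)
    (hα : ∀ x : FK (N0 * q),
      ((normAlong (alphaB L0 q) (inclAlg (Nat.mul_dvd_mul_right h0 q) x) : FK L0) :
        LaurentSeries Kb) = ((normAlong (alphaB N0 q) x : FK N0) : LaurentSeries Kb))
    (x : Additive (Kum Kb (FK (N0 * q)) m)) :
    aLow L0 q m (kumIncl m (Nat.mul_dvd_mul_right h0 q) x) = kumIncl m h0 (aLow N0 q m x) := by
  obtain ⟨u, rfl⟩ := exists_rep x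
  rw [kumIncl_mk, aLow_mk, aLow_mk, kumIncl_mk]
  refine congrArg (fun v => Additive.ofMul (Kum.mk v)) (Subtype.ext (Units.ext (Subtype.ext ?_)))
  show ((normAlong (alphaB L0 q) ((inclUnits (Nat.mul_dvd_mul_right h0 q)
      (u : (FK (N0 * q))ˣ) : (FK (L0 * q))ˣ) : FK (L0 * q)) : FK L0) : LaurentSeries Kb) =
    (((inclUnits h0 (normUnits N0 q (u : (FK (N0 * q))ˣ)) : (FK L0)ˣ) : FK L0) : LaurentSeries Kb)
  rw [inclUnits_eq, inclUnits_eq, coe_inclAlg, hα]
  rfl

/-- the `β`-square on Kummer groups from the square on functions -/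
theorem bLowB_kumIncl (h0 : N0 ∣ L0)
    (hβ : ∀ x : FK (N0 * q),
      ((normAlong (betaB L0 q) (inclAlg (Nat.mul_dvd_mul_right h0 q) x) : FK L0) :
        LaurentSeries Kb) = ((normAlong (betaB N0 q) x : FK N0) : LaurentSeries Kb))
    (x : Additive (Kum Kb (FK (N0 * q)) m)) :
    bLowB L0 q m (kumIncl m (Nat.mul_dvd_mul_right h0 q) x) = kumIncl m h0 (bLowB N0 q m x) := by
  obtain ⟨u, rfl⟩ := exists_rep x
  rw [kumIncl_mk, bLowB_mk, bLowB_mk, kumIncl_mk]
  refine congrArg (fun v => Additive.ofMul (Kum.mk v)) (Subtype.ext (Units.ext (Subtype.ext ?_)))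
  show ((normAlong (betaB L0 q) ((inclUnits (Nat.mul_dvd_mul_right h0 q)
      (u : (FK (N0 * q))ˣ) : (FK (L0 * q))ˣ) : FK (L0 * q)) : FK L0) : LaurentSeries Kb) =
    (((inclUnits h0 (normUnitsB N0 q (u : (FK (N0 * q))ˣ)) : (FK L0)ˣ) : FK L0) : LaurentSeries Kb)
  rw [inclUnits_eq, inclUnits_eq, coe_inclAlg, hβ]
  rfl

/-- **Descent of the concrete gate from the auxiliary level `L0 * q` to `N0 * q`** (`N0 ∣ L0`),
given the two norm squares along `F_{N0 q} ⊆ F_{L0 q}`.  The constant is multiplied by the degree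
`[F_{L0 q} : F_{N0 q}]`. -/
theorem geomInvAB_descent (h0 : N0 ∣ L0)
    (hα : ∀ x : FK (N0 * q),
      ((normAlong (alphaB L0 q) (inclAlg (Nat.mul_dvd_mul_right h0 q) x) : FK L0) :
        LaurentSeries Kb) = ((normAlong (alphaB N0 q) x : FK N0) : LaurentSeries Kb))
    (hβ : ∀ x : FK (N0 * q),
      ((normAlong (betaB L0 q) (inclAlg (Nat.mul_dvd_mul_right h0 q) x) : FK L0) :
        LaurentSeries Kb) = ((normAlong (betaB N0 q) x : FK N0) : LaurentSeries Kb))
    (h : GeomInvAB L0 q m P C) :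
    GeomInv (N0 * q) N0 m P
      (relfinrank (modularFunctionFieldBar (N0 * q)) (modularFunctionFieldBar (L0 * q)) * C) :=
  GeomInv.descent _ (kumIncl m (Nat.mul_dvd_mul_right h0 q))
    (kumIncl_gal m (Nat.mul_dvd_mul_right h0 q))
    (kumNorm m (Nat.mul_dvd_mul_right h0 q)) (kumNorm_kumIncl m (Nat.mul_dvd_mul_right h0 q))
    (aLow N0 q m) (bLowB N0 q m) (aLow_gal N0 q m) (bLowB_gal N0 q m) (kumIncl m h0)
    ⟨aLow L0 q m, bLowB L0 q m, aLow_kumIncl h0 hα, bLowB_kumIncl h0 hβ, h⟩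

end Gate

/-! ### The gate in unit form -/

section Units

variable (N0 q : ℕ) [NeZero N0] [NeZero q]

/-- **The concrete gate in UNIT form** (moduli `m1 ∣ m`): for every unit `u` of `F_{N0 q}` with
`m ∣ div u`, whose class mod `m`-th powers is `I(P)`-invariant and whose two degeneracy norms are
`m`-th powers, `u ^ C` is an `m1`-th power. -/
def UnitGateAB (m m1 : ℕ) (P : ValuationSubring (AlgebraicClosure ℚ)) (C : ℕ) : Prop :=
  ∀ u : (FK (N0 * q))ˣ, u ∈ pDivUnits Kb (FK (N0 * q)) m →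
    (∀ σ ∈ P.inertiaSubgroupIn ℚ, ∃ w : (FK (N0 * q))ˣ, galUnits (N0 * q) σ u = u * w ^ m) →
    (∃ w : (FK N0)ˣ, normUnits N0 q u = w ^ m) →
    (∃ w : (FK N0)ˣ, normUnitsB N0 q u = w ^ m) →
      ∃ w : (FK (N0 * q))ˣ, u ^ C = w ^ m1

variable {N0 q}

theorem ofMul_mk_eq_zero_iff {N m : ℕ} (u : pDivUnits Kb (FK N) m) :
    (Additive.ofMul (Kum.mk u) : Additive (Kum Kb (FK N) m)) = 0 ↔
      ∃ w : (FK N)ˣ, (u : (FK N)ˣ) = w ^ m := by
  have h0 : (0 : Additive (Kum Kb (FK N) m)) = Additive.ofMul (Kum.mk 1) := by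
    rw [map_one]; rfl
  rw [h0, Additive.ofMul.injective.eq_iff, eq_comm, Kum.mk_eq_mk_iff]
  constructor
  · rintro ⟨w, hw⟩
    exact ⟨w, by rw [hw]; simp⟩
  · rintro ⟨w, hw⟩
    exact ⟨w, by rw [hw]; simp⟩

/-- the unit form implies the transition form of the gate -/
theorem trans_smul_eq_zero_of_unitGate {m m1 : ℕ} (hm : m1 ∣ m)
    {P : ValuationSubring (AlgebraicClosure ℚ)} {C : ℕ} (h : UnitGateAB N0 q m m1 P C)
    (y : Additive (Kum Kb (FK (N0 * q)) m))
    (hy : ∀ σ ∈ P.inertiaSubgroupIn ℚ, gal (N0 * q) m σ y = y)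
    (h1 : aLow N0 q m y = 0) (h2 : bLowB N0 q m y = 0) :
    C • (Additive.ofMul (KumTower.trans hm (Additive.toMul y)) :
      Additive (Kum Kb (FK (N0 * q)) m1)) = 0 := by
  obtain ⟨u, rfl⟩ := exists_rep y
  rw [aLow_mk, ofMul_mk_eq_zero_iff] at h1
  rw [bLowB_mk, ofMul_mk_eq_zero_iff] at h2
  have hI : ∀ σ ∈ P.inertiaSubgroupIn ℚ,
      ∃ w : (FK (N0 * q))ˣ, galUnits (N0 * q) σ u = u * w ^ m := by
    intro σ hσ
    have h3 := hy σ hσ
    rw [gal_mk, Additive.ofMul.injective.eq_iff, eq_comm, Kum.mk_eq_mk_iff] at h3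
    exact h3
  obtain ⟨w, hw⟩ := h (u : (FK (N0 * q))ˣ) u.2 hI h1 h2
  show C • (Additive.ofMul (KumTower.trans hm (Kum.mk u)) :
      Additive (Kum Kb (FK (N0 * q)) m1)) = 0
  rw [trans_mk, ← ofMul_pow, ← map_pow, ofMul_mk_eq_zero_iff]
  exact ⟨w, hw⟩

/-- **The concrete gate at all levels `p ^ k` from its unit form with a bounded level loss
`p ^ c`.** -/
theorem geomInvAB_of_unitGate (p : ℕ) [Fact p.Prime] (c C' : ℕ)
    {P : ValuationSubring (AlgebraicClosure ℚ)}
    (h : ∀ k, c ≤ k → UnitGateAB N0 q (p ^ k) (p ^ (k - c)) P C') (k : ℕ) :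
    GeomInvAB N0 q (p ^ k) P (C' * p ^ c) := by
  intro y hy h1 h2
  rcases Nat.lt_or_ge k c with hkc | hck
  · -- small level: `p ^ k ∣ p ^ c`
    obtain ⟨d, hd⟩ : p ^ k ∣ C' * p ^ c := Dvd.dvd.mul_left (pow_dvd_pow p hkc.le) C'
    rw [hd, mul_comm (p ^ k) d, mul_smul]
    have : (p ^ k : ℕ) • y = 0 := by
      rw [← Nat.cast_smul_eq_nsmul (ZMod (p ^ k)), ZMod.natCast_self, zero_smul]
    rw [this, smul_zero]
  · exact smul_eq_zero_of_trans (N0 * q) p hck C' y
      (trans_smul_eq_zero_of_unitGate (pow_dvd_pow p (Nat.sub_le k c)) (h k hck) y hy h1 h2)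

end Units

/-! ### helper64's gate from the concrete gate at auxiliary levels -/

section Final

open Fermat.Agent.GL.Final

/-- **`S36GeomGate` from the concrete gate at auxiliary levels.**  For every `N0` with `q ∥ N0`
(so `q² ∥ N0 q`) one needs an auxiliary level `L0` (a multiple of `N0`, e.g. `N0 r`), the two norm
squares along `F_{N0 q} ⊆ F_{L0 q}`, and the concrete gate `GeomInvAB L0 q (lam ^ k) P C` at level
`L0 q` for all `k` with one constant `C ≠ 0`. -/
theorem s36GeomGate_of_AB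
    (H : ∀ (N0 : ℕ) [NeZero N0] (lam : ℕ) [Fact lam.Prime] (q : ℕ) [NeZero q], q.Prime →
      q ≠ lam → lam ≠ 2 → N0.factorization q = 1 →
      ∃ (L0 : ℕ) (_ : NeZero L0) (h0 : N0 ∣ L0),
        (∀ x : FK (N0 * q),
          ((normAlong (alphaB L0 q) (inclAlg (Nat.mul_dvd_mul_right h0 q) x) : FK L0) :
            LaurentSeries Kb) = ((normAlong (alphaB N0 q) x : FK N0) : LaurentSeries Kb)) ∧
        (∀ x : FK (N0 * q),
          ((normAlong (betaB L0 q) (inclAlg (Nat.mul_dvd_mul_right h0 q) x) : FK L0) :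
            LaurentSeries Kb) = ((normAlong (betaB N0 q) x : FK N0) : LaurentSeries Kb)) ∧
        ∃ P : ValuationSubring (AlgebraicClosure ℚ), P.LiesOverPrime q ∧
          ∃ C : ℕ, C ≠ 0 ∧ ∀ k : ℕ, GeomInvAB L0 q (lam ^ k) P C) :
    S36GeomGate := by
  intro M _ lam _ q hq hqlam hlam2 hfac
  have hqM : q ∣ M := by
    by_contra hnd
    rw [Nat.factorization_eq_zero_of_not_dvd hnd] at hfac
    exact absurd hfac (by norm_num)
  obtain ⟨N0, rfl⟩ : ∃ N0, M = N0 * q := ⟨M / q, (Nat.div_mul_cancel hqM).symm⟩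
  haveI : NeZero q := ⟨hq.ne_zero⟩
  have hN0 : N0 ≠ 0 := by
    rintro rfl
    exact (NeZero.ne (0 * q)) (zero_mul q)
  haveI : NeZero N0 := ⟨hN0⟩
  have hfac0 : N0.factorization q = 1 := by
    rw [Nat.factorization_mul hN0 hq.ne_zero, Finsupp.add_apply, hq.factorization_self] at hfac
    omega
  obtain ⟨L0, hL0, h0, hα, hβ, P, hP, C, hC, hgeom⟩ := H N0 lam q hq hqlam hlam2 hfac0
  refine ⟨N0, inferInstance, Dvd.intro _ rfl, ?_, P, hP, _, ?_,
    fun k => geomInvAB_descent h0 hα hβ (hgeom k)⟩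
  · intro h
    have h2 := hq.two_le
    have h3 : N0 * 1 = N0 * q := by rw [mul_one]; exact h
    have := Nat.eq_of_mul_eq_mul_left (Nat.pos_of_ne_zero hN0) h3
    omega
  · exact Nat.mul_ne_zero (relfinrank_pos (Nat.mul_dvd_mul_right h0 q)).ne' hC

end Final

end Fermat.Agent.GL.Hecke
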